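import Mathlib
import Fermat.Agent.S25.Core

/-!
# S25, package G2 (separatedness), algebra half: valuative separatedness for two-chart bundles

Over a valuation ring `R`, two line bundles `N, N'` on a two-chart `𝔹` (vocabulary of
`Fermat/Agent/S25/Core.lean`) that are *isogenous* (there are morphisms `φ : N ⟶ N'`,
`ψ : N' ⟶ N` with `ψ φ = a`, `φ ψ = a` for some `a ≠ 0` in `R`; e.g. because they become
isomorphic over the fraction field) are isomorphic — provided the chart rings are free over `R`,
the special fibre of the first chart is a domain, and the coordinate `g` of the second chart is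
regular modulo every element of `R` (all true for `𝔹 = R ⊗ (curve data)`).

No cohomology, no finiteness theorem, no degree theory: only the partition of unity of an
invertible module, the rank-one identity `l x • y = l y • x`, and divisibility in `R`.
-/

set_option autoImplicit false

universe u

namespace Fermat.Agent.S25.VALSEP.G2910

open scoped TensorProduct

/-! ### Invertible modules: partition of unity and the rank-one identity -/

section Invertible

variable {B : Type*} [CommRing B] {M : Type*} [AddCommGroup M] [Module B M]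

/-- Partition of unity of an invertible module. -/
theorem inv_exists_partition [Module.Invertible B M] :
    ∃ S : Finset (Module.Dual B M × M), ∑ p ∈ S, p.1 p.2 = 1 := by
  obtain ⟨t, ht⟩ := (Module.Invertible.bijective (R := B) (M := M)).2 1
  obtain ⟨S, rfl⟩ := TensorProduct.exists_finset t
  refine ⟨S, ?_⟩
  rw [map_sum] at ht
  simpa [contractLeft_apply] using ht

/-- The rank-one identity in an invertible module. -/
theorem inv_rank_one [Module.Invertible B M] (l : Module.Dual B M) (x y : M) :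
    l x • y = l y • x := by
  have h := congrArg (TensorProduct.lift ((LinearMap.lsmul B M).comp l))
    (Module.Invertible.tmul_comm (R := B) (m₁ := x) (m₂ := y))
  simpa using h

/-- Dual basis expansion in an invertible module. -/
theorem inv_expand [Module.Invertible B M] {S : Finset (Module.Dual B M × M)}
    (hS : ∑ p ∈ S, p.1 p.2 = 1) (z : M) : ∑ p ∈ S, p.1 z • p.2 = z := by
  calc ∑ p ∈ S, p.1 z • p.2 = ∑ p ∈ S, p.1 p.2 • z :=
        Finset.sum_congr rfl fun p _ => inv_rank_one p.1 z p.2
    _ = (∑ p ∈ S, p.1 p.2) • z := (Finset.sum_smul).symm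
    _ = z := by rw [hS, one_smul]

end Invertible

/-! ### Divisibility in a valuation ring -/

section Valuation

variable {R : Type*} [CommRing R] [IsDomain R] [ValuationRing R]

theorem exists_dvd_iff_and (e₁ e₂ : R) : ∃ e : R, ∀ c : R, (e₁ ∣ c ∧ e₂ ∣ c) ↔ e ∣ c := by
  rcases ValuationRing.dvd_total e₁ e₂ with h | h
  · exact ⟨e₂, fun c => ⟨fun hc => hc.2, fun hc => ⟨h.trans hc, hc⟩⟩⟩
  · exact ⟨e₁, fun c => ⟨fun hc => hc.1, fun hc => ⟨hc, h.trans hc⟩⟩⟩

theorem exists_dvd_iff_dvd_mul (a y : R) (ha : a ≠ 0) :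
    ∃ e : R, ∀ c : R, a ∣ c * y ↔ e ∣ c := by
  rcases ValuationRing.dvd_total a y with h | h
  · exact ⟨1, fun c => ⟨fun _ => one_dvd c, fun _ => h.mul_left c⟩⟩
  · obtain ⟨e, rfl⟩ := h
    have hy : y ≠ 0 := left_ne_zero_of_mul ha
    refine ⟨e, fun c => ?_⟩
    rw [mul_comm c y]
    exact mul_dvd_mul_iff_left hy

/-- A finite conjunction of principal conditions is principal. -/
theorem exists_dvd_iff_forall_mem {ι : Type*} (T : Finset ι) (Q : ι → R → Prop)
    (hQ : ∀ t ∈ T, ∃ e : R, ∀ c : R, Q t c ↔ e ∣ c) :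
    ∃ e : R, ∀ c : R, (∀ t ∈ T, Q t c) ↔ e ∣ c := by
  classical
  induction T using Finset.induction_on with
  | empty => exact ⟨1, fun c => by simp⟩
  | insert t T ht ih =>
    obtain ⟨e₁, he₁⟩ := ih fun s hs => hQ s (Finset.mem_insert_of_mem hs)
    obtain ⟨e₂, he₂⟩ := hQ t (Finset.mem_insert_self t T)
    obtain ⟨e, he⟩ := exists_dvd_iff_and e₂ e₁
    refine ⟨e, fun c => ?_⟩
    rw [Finset.forall_mem_insert, he₂, he₁, he]

end Valuation

/-! ### Principal divisibility ideals for free algebras and invertible modules -/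

section Coordinates

variable {R : Type*} [CommRing R] [IsDomain R] [ValuationRing R]
  {B : Type*} [CommRing B] [Algebra R B] [Module.Free R B]

/-- `{c | c • β ∈ a • B}` is a principal ideal of the valuation ring `R`. -/
theorem exists_dvd_iff_smul_mem_free (β : B) (a : R) (ha : a ≠ 0) :
    ∃ e : R, ∀ c : R, (∃ γ : B, c • β = a • γ) ↔ e ∣ c := by
  classical
  let b := Module.Free.chooseBasis R B
  obtain ⟨e, he⟩ := exists_dvd_iff_forall_mem (b.repr β).support
    (fun t c => a ∣ c * b.repr β t) (fun t _ => exists_dvd_iff_dvd_mul a (b.repr β t) ha)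
  refine ⟨e, fun c => ?_⟩
  rw [← he]
  constructor
  · rintro ⟨γ, hγ⟩ t -
    have := congrArg (fun v => b.repr v t) hγ
    simp only [map_smul, Finsupp.smul_apply, smul_eq_mul] at this
    exact ⟨_, this⟩
  · intro h
    choose! w hw using h
    refine ⟨∑ t ∈ (b.repr β).support, w t • b t, ?_⟩
    rw [Finset.smul_sum]
    conv_lhs =>
      rw [← b.linearCombination_repr β, Finsupp.linearCombination_apply, Finsupp.sum,
        Finset.smul_sum]
    refine Finset.sum_congr rfl fun t ht => ?_
    rw [smul_smul, smul_smul, ← hw t ht]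

variable {M : Type*} [AddCommGroup M] [Module R M] [Module B M] [IsScalarTower R B M]

/-- `{c | c • y ∈ a • M}` is a principal ideal, for `M` invertible over `B`. -/
theorem exists_dvd_iff_smul_mem_inv [Module.Invertible B M] (y : M) (a : R) (ha : a ≠ 0) :
    ∃ e : R, ∀ c : R, (∃ z : M, c • y = a • z) ↔ e ∣ c := by
  classical
  obtain ⟨S, hS⟩ := inv_exists_partition (B := B) (M := M)
  obtain ⟨e, he⟩ := exists_dvd_iff_forall_mem S (fun p c => ∃ γ : B, c • p.1 y = a • γ)
    (fun p _ => exists_dvd_iff_smul_mem_free (p.1 y) a ha)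
  refine ⟨e, fun c => ?_⟩
  rw [← he]
  constructor
  · rintro ⟨z, hz⟩ p -
    refine ⟨p.1 z, ?_⟩
    rw [← LinearMap.map_smul_of_tower, hz, LinearMap.map_smul_of_tower]
  · intro h
    choose! γ hγ using h
    refine ⟨∑ p ∈ S, γ p • p.2, ?_⟩
    rw [Finset.smul_sum]
    conv_lhs => rw [← inv_expand hS y, Finset.smul_sum]
    refine Finset.sum_congr rfl fun p hp => ?_
    rw [← smul_assoc, hγ p hp, smul_assoc]

/-- `{c | c • φ(N) ⊆ a • M}` is a principal ideal, for `N`, `M` invertible over `B`. -/
theorem exists_dvd_iff_map_smul_mem {N : Type*} [AddCommGroup N] [Module B N]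
    [Module.Invertible B N] [Module.Invertible B M] (φ : N →ₗ[B] M) (a : R) (ha : a ≠ 0) :
    ∃ e : R, ∀ c : R, (∀ n : N, ∃ z : M, c • φ n = a • z) ↔ e ∣ c := by
  classical
  obtain ⟨S, hS⟩ := inv_exists_partition (B := B) (M := N)
  obtain ⟨e, he⟩ := exists_dvd_iff_forall_mem S (fun q c => ∃ z : M, c • φ q.2 = a • z)
    (fun q _ => exists_dvd_iff_smul_mem_inv (B := B) (φ q.2) a ha)
  refine ⟨e, fun c => ?_⟩
  rw [← he]
  constructor
  · intro h q _
    exact h q.2
  · intro h n
    choose! z hz using h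
    refine ⟨∑ q ∈ S, q.1 n • z q, ?_⟩
    conv_lhs => rw [← inv_expand hS n, map_sum, Finset.smul_sum]
    rw [Finset.smul_sum]
    refine Finset.sum_congr rfl fun q hq => ?_
    rw [map_smul, smul_comm c (q.1 n) (φ q.2), hz q hq, smul_comm]

end Coordinates

/-! ### Invertible modules over an algebra: torsion, special fibre, regular elements -/

section Tower

variable {R : Type*} [CommRing R] {B : Type*} [CommRing B] [Algebra R B]
  {M : Type*} [AddCommGroup M] [Module R M] [Module B M] [IsScalarTower R B M]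

/-- An invertible module over an `R`-torsion-free algebra is `R`-torsion-free. -/
theorem inv_smul_cancel [IsDomain R] [Module.IsTorsionFree R B] [Module.Invertible B M] {c : R}
    (hc : c ≠ 0) {z z' : M} (h : c • z = c • z') : z = z' := by
  classical
  obtain ⟨S, hS⟩ := inv_exists_partition (B := B) (M := M)
  rw [← inv_expand hS z, ← inv_expand hS z']
  refine Finset.sum_congr rfl fun p _ => ?_
  congr 1
  have h1 : c • p.1 z = c • p.1 z' := by
    rw [← LinearMap.map_smul_of_tower, h, LinearMap.map_smul_of_tower]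
  exact smul_right_injective B hc h1

/-- If an invertible `B`-module is divisible by `w : R`, then `w` becomes a unit in `B`. -/
theorem inv_exists_smul_eq_one [Module.Invertible B M] (w : R)
    (hw : ∀ z : M, ∃ z' : M, z = w • z') : ∃ β : B, w • β = 1 := by
  classical
  obtain ⟨S, hS⟩ := inv_exists_partition (B := B) (M := M)
  choose z' hz' using hw
  refine ⟨∑ p ∈ S, p.1 (z' p.2), ?_⟩
  rw [Finset.smul_sum, ← hS]
  refine Finset.sum_congr rfl fun p _ => ?_
  rw [← LinearMap.map_smul_of_tower, ← hz']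

/-- Special fibre alternative: over a prime `𝔭`, if `β ∘ α` vanishes modulo `𝔭` then `α` or `β`
vanishes modulo `𝔭` (homomorphisms between invertible modules). -/
theorem inv_prime_alternative {N : Type*} [AddCommGroup N] [Module B N] [Module.Invertible B M]
    (𝔭 : Ideal B) [𝔭.IsPrime] (α : N →ₗ[B] M) (β : M →ₗ[B] N)
    (h : ∀ (x : N) (μ : Module.Dual B N), μ (β (α x)) ∈ 𝔭) :
    (∀ (x : N) (l : Module.Dual B M), l (α x) ∈ 𝔭) ∨
      (∀ (y : M) (μ : Module.Dual B N), μ (β y) ∈ 𝔭) := by
  by_contra hcon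
  push Not at hcon
  obtain ⟨⟨x₀, l₀, h1⟩, ⟨y₀, μ₀, h2⟩⟩ := hcon
  have key : l₀ (α x₀) * μ₀ (β y₀) = l₀ y₀ * μ₀ (β (α x₀)) := by
    have := congrArg (fun v => μ₀ (β v)) (inv_rank_one l₀ (α x₀) y₀)
    simpa only [map_smul, smul_eq_mul] using this
  have hmem : l₀ (α x₀) * μ₀ (β y₀) ∈ 𝔭 := by
    rw [key]
    exact Ideal.mul_mem_left _ _ (h x₀ μ₀)
  rcases (Ideal.IsPrime.mem_or_mem inferInstance hmem) with h' | h'
  · exact h1 h'
  · exact h2 h'

/-- Regularity of `g` modulo `b` passes from the ring to invertible modules. -/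
theorem inv_exists_smul_of_pow_smul [Module.Invertible B M] (g : B)
    (hg : ∀ (b : R) (y z : B), g * y = b • z → ∃ w : B, y = b • w) (b : R) (k : ℕ) :
    ∀ (y z : M), g ^ k • y = b • z → ∃ w : M, y = b • w := by
  classical
  obtain ⟨S, hS⟩ := inv_exists_partition (B := B) (M := M)
  have step : ∀ (y z : M), g • y = b • z → ∃ w : M, y = b • w := by
    intro y z h
    have h1 : ∀ p ∈ S, ∃ w : B, p.1 y = b • w := by
      intro p _
      refine hg b (p.1 y) (p.1 z) ?_
      rw [← smul_eq_mul, ← map_smul, h, LinearMap.map_smul_of_tower]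
    choose! w hw using h1
    refine ⟨∑ p ∈ S, w p • p.2, ?_⟩
    rw [Finset.smul_sum]
    conv_lhs => rw [← inv_expand hS y]
    refine Finset.sum_congr rfl fun p hp => ?_
    rw [hw p hp, smul_assoc]
  induction k with
  | zero =>
    intro y z h
    exact ⟨z, by simpa using h⟩
  | succ k ih =>
    intro y z h
    rw [pow_succ', mul_smul] at h
    obtain ⟨w, hw⟩ := step _ _ h
    exact ih y w hw

end Tower

section Maximal

variable {R : Type*} [CommRing R] [IsDomain R] [ValuationRing R]
  {B : Type*} [CommRing B] [Algebra R B]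

/-- Elements of `𝔪 B` are divisible by an element of `𝔪`. -/
theorem exists_smul_of_mem_map_maximalIdeal (β : B)
    (hβ : β ∈ Ideal.map (algebraMap R B) (IsLocalRing.maximalIdeal R)) :
    ∃ b ∈ IsLocalRing.maximalIdeal R, ∃ γ : B, β = b • γ := by
  rw [Ideal.map] at hβ
  induction hβ using Submodule.span_induction with
  | mem x hx =>
    obtain ⟨r, hr, rfl⟩ := hx
    exact ⟨r, hr, 1, by rw [Algebra.smul_def, mul_one]⟩
  | zero => exact ⟨0, Ideal.zero_mem _, 0, by simp⟩
  | add x y _ _ hx hy =>
    obtain ⟨b₁, hb₁, γ₁, rfl⟩ := hx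
    obtain ⟨b₂, hb₂, γ₂, rfl⟩ := hy
    rcases ValuationRing.dvd_total b₁ b₂ with ⟨c, rfl⟩ | ⟨c, rfl⟩
    · exact ⟨b₁, hb₁, γ₁ + c • γ₂, by rw [smul_add, mul_smul]⟩
    · exact ⟨b₂, hb₂, c • γ₁ + γ₂, by rw [smul_add, mul_smul]⟩
  | smul a x _ hx =>
    obtain ⟨b, hb, γ, rfl⟩ := hx
    exact ⟨b, hb, a * γ, by rw [smul_eq_mul, mul_smul_comm]⟩

/-- A finite family in `𝔪 B` has a common divisor in `𝔪`. -/
theorem exists_common_smul_of_mem_map_maximalIdeal {ι : Type*} (T : Finset ι) (β : ι → B)
    (hβ : ∀ t ∈ T, β t ∈ Ideal.map (algebraMap R B) (IsLocalRing.maximalIdeal R)) :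
    ∃ b ∈ IsLocalRing.maximalIdeal R, ∀ t ∈ T, ∃ γ : B, β t = b • γ := by
  classical
  induction T using Finset.induction_on with
  | empty => exact ⟨0, Ideal.zero_mem _, by simp⟩
  | insert t T ht ih =>
    obtain ⟨b₁, hb₁, h₁⟩ := ih fun s hs => hβ s (Finset.mem_insert_of_mem hs)
    obtain ⟨b₂, hb₂, γ₂, h₂⟩ := exists_smul_of_mem_map_maximalIdeal (β t)
      (hβ t (Finset.mem_insert_self t T))
    rcases ValuationRing.dvd_total b₁ b₂ with ⟨c, rfl⟩ | ⟨c, rfl⟩
    · refine ⟨b₁, hb₁, fun s hs => ?_⟩
      rcases Finset.mem_insert.mp hs with rfl | hs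
      · exact ⟨c • γ₂, by rw [h₂, mul_smul]⟩
      · exact h₁ s hs
    · refine ⟨b₂, hb₂, fun s hs => ?_⟩
      rcases Finset.mem_insert.mp hs with rfl | hs
      · exact ⟨γ₂, h₂⟩
      · obtain ⟨γ, hγ⟩ := h₁ s hs
        exact ⟨c • γ, by rw [hγ, mul_smul]⟩

end Maximal

/-- A non-unit of `R` does not divide an invertible `B`-module when `𝔪 B` is a proper ideal. -/
theorem isUnit_of_divisible {R : Type*} [CommRing R] [IsDomain R] [ValuationRing R]
    {B : Type*} [CommRing B] [Algebra R B]
    (hprime : (Ideal.map (algebraMap R B) (IsLocalRing.maximalIdeal R)).IsPrime)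
    {M : Type*} [AddCommGroup M] [Module R M] [Module B M] [IsScalarTower R B M]
    [Module.Invertible B M] (w : R) (hw : ∀ z : M, ∃ z' : M, z = w • z') : IsUnit w := by
  by_contra hnu
  have hwm : w ∈ IsLocalRing.maximalIdeal R := (IsLocalRing.mem_maximalIdeal w).mpr hnu
  obtain ⟨β, hβ⟩ := inv_exists_smul_eq_one (B := B) w hw
  have h1 : (1 : B) ∈ Ideal.map (algebraMap R B) (IsLocalRing.maximalIdeal R) := by
    rw [← hβ, Algebra.smul_def]
    exact Ideal.mul_mem_right _ _ (Ideal.mem_map_of_mem _ hwm)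
  exact hprime.ne_top ((Ideal.eq_top_iff_one _).mpr h1)

/-- Division of a linear map by a scalar acting injectively on the target. -/
noncomputable def divMap {R : Type*} [CommRing R] {B : Type*} [CommRing B] [Algebra R B]
    {P Q : Type*} [AddCommGroup P] [Module B P] [AddCommGroup Q] [Module R Q] [Module B Q]
    [IsScalarTower R B Q] (φ : P →ₗ[B] Q) (d : R)
    (hinj : ∀ z z' : Q, d • z = d • z' → z = z') (hdvd : ∀ n : P, ∃ z : Q, φ n = d • z) :
    P →ₗ[B] Q where
  toFun n := (hdvd n).choose
  map_add' x y := hinj _ _ (by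
    rw [smul_add, ← (hdvd x).choose_spec, ← (hdvd y).choose_spec, ← (hdvd (x + y)).choose_spec,
      map_add])
  map_smul' b x := hinj _ _ (by
    simp only [RingHom.id_apply]
    rw [smul_comm d b, ← (hdvd x).choose_spec, ← (hdvd (b • x)).choose_spec, map_smul])

theorem smul_divMap {R : Type*} [CommRing R] {B : Type*} [CommRing B] [Algebra R B]
    {P Q : Type*} [AddCommGroup P] [Module B P] [AddCommGroup Q] [Module R Q] [Module B Q]
    [IsScalarTower R B Q] (φ : P →ₗ[B] Q) (d : R)
    (hinj : ∀ z z' : Q, d • z = d • z' → z = z') (hdvd : ∀ n : P, ∃ z : Q, φ n = d • z) (n : P) :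
    d • divMap φ d hinj hdvd n = φ n :=
  ((hdvd n).choose_spec).symm

end Fermat.Agent.S25.VALSEP.G2910
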