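import Mathlib
import Fermat.Agent.S25.Core
import Fermat.Agent.S25.VALSEP.G2910.ValSepAlg

/-!
# S25, package G2 (separatedness), algebra half: isogenous two-chart line bundles over a
valuation ring are isomorphic

Main result: `nonempty_iso_of_isogeny`.
-/

set_option autoImplicit false

universe u

namespace Fermat.Agent.S25.VALSEP.G2910

open Fermat.Agent.S25

section Glued

variable {R : Type u} [CommRing R] {𝔹 : TwoChart R}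

theorem chart_fg_pow (𝔹 : TwoChart R) (m : ℕ) : 𝔹.r₁ 𝔹.f ^ m * 𝔹.r₂ 𝔹.g ^ m = 1 := by
  rw [← mul_pow, 𝔹.fg, one_pow]

theorem chart_gf_pow (𝔹 : TwoChart R) (m : ℕ) : 𝔹.r₂ 𝔹.g ^ m * 𝔹.r₁ 𝔹.f ^ m = 1 := by
  rw [mul_comm, chart_fg_pow]

/-- Morphisms of glued modules. -/
structure Mor (N N' : GluedModule 𝔹) where
  m₁ : N.N₁ →ₗ[𝔹.B₁] N'.N₁
  m₂ : N.N₂ →ₗ[𝔹.B₂] N'.N₂
  m₁₂ : N.N₁₂ →ₗ[𝔹.B₁₂] N'.N₁₂
  comm₁ : ∀ n, m₁₂ (N.ι₁ n) = N'.ι₁ (m₁ n)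
  comm₂ : ∀ n, m₁₂ (N.ι₂ n) = N'.ι₂ (m₂ n)

/-- `φ` is divisible by the scalar `d` on both charts. -/
def Mor.Dvd {N N' : GluedModule 𝔹} (φ : Mor N N') (d : R) : Prop :=
  (∀ n : N.N₁, ∃ z : N'.N₁, φ.m₁ n = d • z) ∧ (∀ n : N.N₂, ∃ z : N'.N₂, φ.m₂ n = d • z)

/-- `R`-torsion-freeness passes from the first chart to the overlap. -/
theorem glued_smul_eq_zero₁₂ (N : GluedModule 𝔹) (d : R)
    (h₁ : ∀ z : N.N₁, d • z = 0 → z = 0) (y : N.N₁₂) (hy : d • y = 0) : y = 0 := by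
  obtain ⟨n, m, rfl⟩ := N.surj₁ y
  have h2 : N.ι₁ (d • n) = 0 := by
    have : d • N.ι₁ n = 𝔹.r₁ 𝔹.f ^ m • (d • (𝔹.r₂ 𝔹.g ^ m • N.ι₁ n)) := by
      rw [smul_comm d, smul_smul, chart_fg_pow, one_smul]
    rw [map_smul, this, hy, smul_zero]
  obtain ⟨j, hj⟩ := N.ker₁ _ h2
  have h3 : 𝔹.f ^ j • n = 0 := h₁ _ (by rw [smul_comm]; exact hj)
  have h4 : N.ι₁ n = 0 := by
    have : N.ι₁ n = 𝔹.r₂ 𝔹.g ^ j • N.ι₁ (𝔹.f ^ j • n) := by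
      rw [N.ι₁_smul, map_pow, smul_smul, chart_gf_pow, one_smul]
    rw [this, h3, map_zero, smul_zero]
  rw [h4, smul_zero]

theorem glued_smul_cancel₁₂ (N : GluedModule 𝔹) (d : R)
    (h₁ : ∀ z z' : N.N₁, d • z = d • z' → z = z') (y y' : N.N₁₂) (hy : d • y = d • y') :
    y = y' := by
  have h0 : ∀ z : N.N₁, d • z = 0 → z = 0 := fun z hz => h₁ z 0 (by rw [hz, smul_zero])
  have := glued_smul_eq_zero₁₂ N d h0 (y - y') (by rw [smul_sub, hy, sub_self])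
  exact sub_eq_zero.mp this

/-- The overlap component of a morphism is determined by the first chart. -/
theorem Mor.m₁₂_apply {N N' : GluedModule 𝔹} (φ : Mor N N') (n : N.N₁) (m : ℕ) :
    φ.m₁₂ (𝔹.r₂ 𝔹.g ^ m • N.ι₁ n) = 𝔹.r₂ 𝔹.g ^ m • N'.ι₁ (φ.m₁ n) := by
  rw [map_smul, φ.comm₁]

/-- Divisibility on the overlap follows from divisibility on the first chart. -/
theorem Mor.dvd₁₂ {N N' : GluedModule 𝔹} (φ : Mor N N') (d : R)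
    (h : ∀ n : N.N₁, ∃ z : N'.N₁, φ.m₁ n = d • z) (y : N.N₁₂) :
    ∃ z : N'.N₁₂, φ.m₁₂ y = d • z := by
  obtain ⟨n, m, rfl⟩ := N.surj₁ y
  obtain ⟨z, hz⟩ := h n
  refine ⟨𝔹.r₂ 𝔹.g ^ m • N'.ι₁ z, ?_⟩
  rw [φ.m₁₂_apply, hz, map_smul, smul_comm]

/-- Division of a morphism by a scalar. -/
noncomputable def Mor.div {N N' : GluedModule 𝔹} (φ : Mor N N') (d : R)
    (hinj₁ : ∀ z z' : N'.N₁, d • z = d • z' → z = z')
    (hinj₂ : ∀ z z' : N'.N₂, d • z = d • z' → z = z') (hd : φ.Dvd d) : Mor N N' where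
  m₁ := divMap φ.m₁ d hinj₁ hd.1
  m₂ := divMap φ.m₂ d hinj₂ hd.2
  m₁₂ := divMap φ.m₁₂ d (glued_smul_cancel₁₂ N' d hinj₁) (φ.dvd₁₂ d hd.1)
  comm₁ n := glued_smul_cancel₁₂ N' d hinj₁ _ _ (by
    rw [smul_divMap, φ.comm₁, ← map_smul, smul_divMap])
  comm₂ n := glued_smul_cancel₁₂ N' d hinj₁ _ _ (by
    rw [smul_divMap, φ.comm₂, ← map_smul, smul_divMap])

theorem Mor.smul_div₁ {N N' : GluedModule 𝔹} (φ : Mor N N') (d : R)
    (hinj₁ : ∀ z z' : N'.N₁, d • z = d • z' → z = z')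
    (hinj₂ : ∀ z z' : N'.N₂, d • z = d • z' → z = z') (hd : φ.Dvd d) (n : N.N₁) :
    d • (φ.div d hinj₁ hinj₂ hd).m₁ n = φ.m₁ n :=
  smul_divMap φ.m₁ d hinj₁ hd.1 n

theorem Mor.smul_div₂ {N N' : GluedModule 𝔹} (φ : Mor N N') (d : R)
    (hinj₁ : ∀ z z' : N'.N₁, d • z = d • z' → z = z')
    (hinj₂ : ∀ z z' : N'.N₂, d • z = d • z' → z = z') (hd : φ.Dvd d) (n : N.N₂) :
    d • (φ.div d hinj₁ hinj₂ hd).m₂ n = φ.m₂ n :=
  smul_divMap φ.m₂ d hinj₂ hd.2 n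

/-- A scalar composite on the first chart is the same scalar on the overlap. -/
theorem Mor.comp₁₂ {N N' : GluedModule 𝔹} (φ : Mor N N') (ψ : Mor N' N) (u : R)
    (h : ∀ n : N.N₁, ψ.m₁ (φ.m₁ n) = u • n) (y : N.N₁₂) : ψ.m₁₂ (φ.m₁₂ y) = u • y := by
  obtain ⟨n, m, rfl⟩ := N.surj₁ y
  rw [φ.m₁₂_apply, ψ.m₁₂_apply, h, map_smul, smul_comm]

/-- Two linear maps composing to a unit scalar both ways are bijective. -/
theorem bijective_of_comp_smul {B : Type*} [CommRing B] [Algebra R B] {P Q : Type*}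
    [AddCommGroup P] [Module R P] [Module B P] [IsScalarTower R B P] [AddCommGroup Q]
    [Module R Q] [Module B Q] [IsScalarTower R B Q] (α : P →ₗ[B] Q) (β : Q →ₗ[B] P) (u u' : R)
    (huu' : u' * u = 1) (h : ∀ x, β (α x) = u • x) (h' : ∀ y, α (β y) = u • y) :
    Function.Bijective α := by
  constructor
  · intro x y hxy
    have h1 := congrArg β hxy
    rw [h, h] at h1
    have h2 := congrArg (fun v => u' • v) h1
    simpa [smul_smul, huu'] using h2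
  · intro y
    exact ⟨β (u' • y), by
      rw [LinearMap.map_smul_of_tower, LinearMap.map_smul_of_tower, h', smul_smul, huu',
        one_smul]⟩

end Glued

section Valuation

variable {R : Type u} [CommRing R] [IsDomain R] [ValuationRing R] {𝔹 : TwoChart R}
  [Module.Free R 𝔹.B₁] [Module.Free R 𝔹.B₂]

/-- A morphism of line bundles which is an isogeny factor has a largest scalar divisor. -/
theorem Mor.exists_primitive_divisor {N N' : GluedModule 𝔹} (hN : N.IsLineBundle)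
    (hN' : N'.IsLineBundle)
    (hprime : (Ideal.map (algebraMap R 𝔹.B₁) (IsLocalRing.maximalIdeal R)).IsPrime)
    (φ : Mor N N') (ψ : Mor N' N) (a : R) (ha : a ≠ 0)
    (h₁ : ∀ n : N.N₁, ψ.m₁ (φ.m₁ n) = a • n) :
    ∃ d : R, d ∣ a ∧ φ.Dvd d ∧ ∀ b : R, φ.Dvd (d * b) → IsUnit b := by
  have := hN.inv₁; have := hN.inv₂; have := hN'.inv₁; have := hN'.inv₂
  obtain ⟨e₁, he₁⟩ := exists_dvd_iff_map_smul_mem (B := 𝔹.B₁) φ.m₁ a ha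
  obtain ⟨e₂, he₂⟩ := exists_dvd_iff_map_smul_mem (B := 𝔹.B₂) φ.m₂ a ha
  obtain ⟨e, he⟩ := exists_dvd_iff_and e₁ e₂
  have hea : e ∣ a := (he a).mp ⟨(he₁ a).mp fun n => ⟨_, rfl⟩, (he₂ a).mp fun n => ⟨_, rfl⟩⟩
  obtain ⟨d, rfl⟩ := hea
  have he0 : e ≠ 0 := left_ne_zero_of_mul ha
  have hd0 : d ≠ 0 := right_ne_zero_of_mul ha
  have hee := (he e).mpr dvd_rfl
  have hD : φ.Dvd d := by
    constructor
    · intro n
      obtain ⟨z, hz⟩ := (he₁ e).mpr hee.1 n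
      exact ⟨z, inv_smul_cancel (B := 𝔹.B₁) he0 (by rw [hz, mul_smul])⟩
    · intro n
      obtain ⟨z, hz⟩ := (he₂ e).mpr hee.2 n
      exact ⟨z, inv_smul_cancel (B := 𝔹.B₂) he0 (by rw [hz, mul_smul])⟩
  refine ⟨d, Dvd.intro_left e rfl, hD, fun b hb => ?_⟩
  rcases ValuationRing.dvd_total b e with ⟨s, rfl⟩ | ⟨t, rfl⟩
  · -- `e = b * s`
    have hs0 : s ≠ 0 := right_ne_zero_of_mul he0
    have hdvd : b * s ∣ s := by
      refine (he s).mp ⟨(he₁ s).mp fun n => ?_, (he₂ s).mp fun n => ?_⟩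
      · obtain ⟨z, hz⟩ := hb.1 n
        exact ⟨z, by rw [hz, smul_smul]; congr 1; ring⟩
      · obtain ⟨z, hz⟩ := hb.2 n
        exact ⟨z, by rw [hz, smul_smul]; congr 1; ring⟩
    obtain ⟨t, ht⟩ := hdvd
    have h1 : s * 1 = s * (b * t) := by linear_combination ht
    have h2 := mul_left_cancel₀ hs0 h1
    exact IsUnit.of_mul_eq_one t h2.symm
  · -- `b = e * t`
    have he1 : e ∣ 1 := by
      refine (he 1).mp ⟨(he₁ 1).mp fun n => ?_, (he₂ 1).mp fun n => ?_⟩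
      · obtain ⟨z, hz⟩ := hb.1 n
        exact ⟨t • z, by rw [one_smul, hz, smul_smul]; congr 1; ring⟩
      · obtain ⟨z, hz⟩ := hb.2 n
        exact ⟨t • z, by rw [one_smul, hz, smul_smul]; congr 1; ring⟩
    have heu : IsUnit e := isUnit_of_dvd_one he1
    have htu : IsUnit t := by
      refine isUnit_of_divisible (B := 𝔹.B₁) (M := N.N₁) hprime t fun n => ?_
      obtain ⟨z, hz⟩ := hb.1 n
      refine ⟨ψ.m₁ z, ?_⟩
      have h2 := h₁ n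
      rw [hz, LinearMap.map_smul_of_tower] at h2
      refine inv_smul_cancel (B := 𝔹.B₁) ha ?_
      rw [← h2, smul_smul]; congr 1; ring
    exact heu.mul htu

omit [Module.Free R 𝔹.B₁] [Module.Free R 𝔹.B₂] in
/-- A morphism of line bundles vanishing on the special fibre of the first chart is divisible by
a non-unit of `R`. -/
theorem Mor.exists_dvd_of_forall_dual_mem {N N' : GluedModule 𝔹} (hN : N.IsLineBundle)
    (hN' : N'.IsLineBundle)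
    (hg : ∀ (b : R) (y z : 𝔹.B₂), 𝔹.g * y = b • z → ∃ w : 𝔹.B₂, y = b • w)
    (χ : Mor N N')
    (h : ∀ (x : N.N₁) (l : Module.Dual 𝔹.B₁ N'.N₁),
      l (χ.m₁ x) ∈ Ideal.map (algebraMap R 𝔹.B₁) (IsLocalRing.maximalIdeal R)) :
    ∃ b ∈ IsLocalRing.maximalIdeal R, χ.Dvd b := by
  classical
  have := hN.inv₁; have := hN.inv₂; have := hN'.inv₁; have := hN'.inv₂
  obtain ⟨S, hS⟩ := inv_exists_partition (B := 𝔹.B₁) (M := N.N₁)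
  obtain ⟨S', hS'⟩ := inv_exists_partition (B := 𝔹.B₁) (M := N'.N₁)
  obtain ⟨b, hb, hγ⟩ := exists_common_smul_of_mem_map_maximalIdeal (S ×ˢ S')
    (fun t => t.2.1 (χ.m₁ t.1.2)) (fun t _ => h _ _)
  choose! γ hγ using hγ
  have hchart₁ : ∀ n : N.N₁, ∃ z : N'.N₁, χ.m₁ n = b • z := by
    intro n
    refine ⟨∑ q ∈ S, ∑ p ∈ S', (q.1 n * γ (q, p)) • p.2, ?_⟩
    conv_lhs => rw [← inv_expand hS n, map_sum]
    rw [Finset.smul_sum]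
    refine Finset.sum_congr rfl fun q hq => ?_
    rw [map_smul, ← inv_expand hS' (χ.m₁ q.2), Finset.smul_sum, Finset.smul_sum]
    refine Finset.sum_congr rfl fun p hp => ?_
    have := hγ (q, p) (Finset.mk_mem_product hq hp)
    simp only at this
    rw [this, smul_smul, mul_smul_comm, smul_assoc, smul_comm b]
  refine ⟨b, hb, hchart₁, fun n => ?_⟩
  obtain ⟨x, m, hx⟩ := N.surj₁ (N.ι₂ n)
  obtain ⟨z, hz⟩ := hchart₁ x
  obtain ⟨w, k, hw⟩ := N'.surj₂ (N'.ι₁ z)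
  have h1 : N'.ι₂ (𝔹.g ^ k • χ.m₂ n - b • 𝔹.g ^ m • w) = 0 := by
    rw [map_sub, sub_eq_zero, N'.ι₂_smul, ← χ.comm₂, hx, χ.m₁₂_apply, hz, map_smul, hw, map_smul,
      N'.ι₂_smul, map_pow, map_pow, smul_comm _ b, smul_comm _ b, smul_smul, smul_smul]
    congr 2
    calc 𝔹.r₂ 𝔹.g ^ k * 𝔹.r₂ 𝔹.g ^ m * 𝔹.r₁ 𝔹.f ^ k
        = 𝔹.r₂ 𝔹.g ^ m * (𝔹.r₁ 𝔹.f ^ k * 𝔹.r₂ 𝔹.g ^ k) := by ring
      _ = 𝔹.r₂ 𝔹.g ^ m := by rw [chart_fg_pow, mul_one]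
  obtain ⟨j, hj⟩ := N'.ker₂ _ h1
  rw [smul_sub, sub_eq_zero, smul_smul, ← pow_add] at hj
  exact inv_exists_smul_of_pow_smul (B := 𝔹.B₂) 𝔹.g hg b (j + k) _ (𝔹.g ^ j • 𝔹.g ^ m • w)
    (by rw [hj, smul_comm])

/-- **Valuative separatedness, algebraic form.**  Over a valuation ring `R`, let `𝔹` be a
two-chart whose chart rings are free over `R`, whose first chart has integral special fibre
(`𝔪 B₁` prime), and whose second coordinate `g` is regular modulo every scalar.  Two line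
bundles on `𝔹` that are isogenous (`ψ φ = a = φ ψ` with `a ≠ 0` in `R`) are isomorphic. -/
theorem nonempty_iso_of_isogeny {N N' : GluedModule 𝔹} (hN : N.IsLineBundle)
    (hN' : N'.IsLineBundle)
    (hprime : (Ideal.map (algebraMap R 𝔹.B₁) (IsLocalRing.maximalIdeal R)).IsPrime)
    (hg : ∀ (b : R) (y z : 𝔹.B₂), 𝔹.g * y = b • z → ∃ w : 𝔹.B₂, y = b • w)
    (φ : Mor N N') (ψ : Mor N' N) (a : R) (ha : a ≠ 0)
    (hψφ₁ : ∀ n : N.N₁, ψ.m₁ (φ.m₁ n) = a • n) (hψφ₂ : ∀ n : N.N₂, ψ.m₂ (φ.m₂ n) = a • n)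
    (hφψ₁ : ∀ n : N'.N₁, φ.m₁ (ψ.m₁ n) = a • n) (hφψ₂ : ∀ n : N'.N₂, φ.m₂ (ψ.m₂ n) = a • n) :
    Nonempty (GluedModule.Iso N N') := by
  have := hN.inv₁; have := hN.inv₂; have := hN'.inv₁; have := hN'.inv₂
  obtain ⟨d, hda, hφd, hprim⟩ := φ.exists_primitive_divisor hN hN' hprime ψ a ha hψφ₁
  obtain ⟨d', hd'a, hψd', hprim'⟩ := ψ.exists_primitive_divisor hN' hN hprime φ a ha hφψ₁
  have hd0 : d ≠ 0 := ne_zero_of_dvd_ne_zero ha hda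
  have hd'0 : d' ≠ 0 := ne_zero_of_dvd_ne_zero ha hd'a
  have c₁ : ∀ c : R, c ≠ 0 → ∀ z z' : N.N₁, c • z = c • z' → z = z' :=
    fun c hc z z' h => inv_smul_cancel (B := 𝔹.B₁) hc h
  have c₂ : ∀ c : R, c ≠ 0 → ∀ z z' : N.N₂, c • z = c • z' → z = z' :=
    fun c hc z z' h => inv_smul_cancel (B := 𝔹.B₂) hc h
  have c₁' : ∀ c : R, c ≠ 0 → ∀ z z' : N'.N₁, c • z = c • z' → z = z' :=
    fun c hc z z' h => inv_smul_cancel (B := 𝔹.B₁) hc h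
  have c₂' : ∀ c : R, c ≠ 0 → ∀ z z' : N'.N₂, c • z = c • z' → z = z' :=
    fun c hc z z' h => inv_smul_cancel (B := 𝔹.B₂) hc h
  -- the divided morphisms
  obtain ⟨φ₀, hφ₀₁, hφ₀₂⟩ : ∃ φ₀ : Mor N N',
      (∀ n, d • φ₀.m₁ n = φ.m₁ n) ∧ (∀ n, d • φ₀.m₂ n = φ.m₂ n) :=
    ⟨φ.div d (c₁' d hd0) (c₂' d hd0) hφd, φ.smul_div₁ d _ _ hφd, φ.smul_div₂ d _ _ hφd⟩
  obtain ⟨ψ₀, hψ₀₁, hψ₀₂⟩ : ∃ ψ₀ : Mor N' N,
      (∀ n, d' • ψ₀.m₁ n = ψ.m₁ n) ∧ (∀ n, d' • ψ₀.m₂ n = ψ.m₂ n) :=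
    ⟨ψ.div d' (c₁ d' hd'0) (c₂ d' hd'0) hψd', ψ.smul_div₁ d' _ _ hψd', ψ.smul_div₂ d' _ _ hψd'⟩
  have k₁ : ∀ n : N.N₁, (d' * d) • ψ₀.m₁ (φ₀.m₁ n) = a • n := fun n => by
    rw [mul_smul, ← LinearMap.map_smul_of_tower ψ₀.m₁ d, hφ₀₁, hψ₀₁, hψφ₁]
  have k₂ : ∀ n : N.N₂, (d' * d) • ψ₀.m₂ (φ₀.m₂ n) = a • n := fun n => by
    rw [mul_smul, ← LinearMap.map_smul_of_tower ψ₀.m₂ d, hφ₀₂, hψ₀₂, hψφ₂]
  have k₁' : ∀ n : N'.N₁, (d * d') • φ₀.m₁ (ψ₀.m₁ n) = a • n := fun n => by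
    rw [mul_smul, ← LinearMap.map_smul_of_tower φ₀.m₁ d', hψ₀₁, hφ₀₁, hφψ₁]
  have k₂' : ∀ n : N'.N₂, (d * d') • φ₀.m₂ (ψ₀.m₂ n) = a • n := fun n => by
    rw [mul_smul, ← LinearMap.map_smul_of_tower φ₀.m₂ d', hψ₀₂, hφ₀₂, hφψ₂]
  have hdd0 : d' * d ≠ 0 := mul_ne_zero hd'0 hd0
  have hdd0' : d * d' ≠ 0 := mul_ne_zero hd0 hd'0
  -- `d' d` divides `a`
  have hdiv : d' * d ∣ a := by
    rcases ValuationRing.dvd_total (d' * d) a with h | ⟨t, ht⟩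
    · exact h
    · have htu : IsUnit t := isUnit_of_divisible (B := 𝔹.B₁) (M := N.N₁) hprime t
        (fun n => ⟨ψ₀.m₁ (φ₀.m₁ n), c₁ a ha _ _ (by rw [← mul_smul, ← ht, k₁ n])⟩)
      obtain ⟨t', ht'⟩ := htu.exists_right_inv
      exact ⟨t', by rw [ht, mul_assoc, ht', mul_one]⟩
  obtain ⟨u, hu⟩ := hdiv
  have u₁ : ∀ n : N.N₁, ψ₀.m₁ (φ₀.m₁ n) = u • n := fun n =>
    c₁ _ hdd0 _ _ (by rw [k₁ n, hu, mul_smul])
  have u₂ : ∀ n : N.N₂, ψ₀.m₂ (φ₀.m₂ n) = u • n := fun n =>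
    c₂ _ hdd0 _ _ (by rw [k₂ n, hu, mul_smul])
  have u₁' : ∀ n : N'.N₁, φ₀.m₁ (ψ₀.m₁ n) = u • n := fun n =>
    c₁' _ hdd0' _ _ (by rw [k₁' n, hu, ← mul_smul]; congr 1; ring)
  have u₂' : ∀ n : N'.N₂, φ₀.m₂ (ψ₀.m₂ n) = u • n := fun n =>
    c₂' _ hdd0' _ _ (by rw [k₂' n, hu, ← mul_smul]; congr 1; ring)
  -- `u` is a unit
  have huu : IsUnit u := by
    by_contra hnu
    have hum : u ∈ IsLocalRing.maximalIdeal R := (IsLocalRing.mem_maximalIdeal u).mpr hnu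
    have hmem : ∀ (x : N.N₁) (μ : Module.Dual 𝔹.B₁ N.N₁), μ (ψ₀.m₁ (φ₀.m₁ x)) ∈
        Ideal.map (algebraMap R 𝔹.B₁) (IsLocalRing.maximalIdeal R) := by
      intro x μ
      rw [u₁, LinearMap.map_smul_of_tower, Algebra.smul_def]
      exact Ideal.mul_mem_right _ _ (Ideal.mem_map_of_mem _ hum)
    have := hprime
    rcases inv_prime_alternative (B := 𝔹.B₁) _ φ₀.m₁ ψ₀.m₁ hmem with h | h
    · obtain ⟨b, hb, hdvd⟩ := φ₀.exists_dvd_of_forall_dual_mem hN hN' hg h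
      have hφdb : φ.Dvd (d * b) :=
        ⟨fun n => by
          obtain ⟨z, hz⟩ := hdvd.1 n
          exact ⟨z, by rw [← hφ₀₁, hz, mul_smul]⟩,
         fun n => by
          obtain ⟨z, hz⟩ := hdvd.2 n
          exact ⟨z, by rw [← hφ₀₂, hz, mul_smul]⟩⟩
      exact (IsLocalRing.mem_maximalIdeal b).mp hb (hprim b hφdb)
    · obtain ⟨b, hb, hdvd⟩ := ψ₀.exists_dvd_of_forall_dual_mem hN' hN hg h
      have hψdb : ψ.Dvd (d' * b) :=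
        ⟨fun n => by
          obtain ⟨z, hz⟩ := hdvd.1 n
          exact ⟨z, by rw [← hψ₀₁, hz, mul_smul]⟩,
         fun n => by
          obtain ⟨z, hz⟩ := hdvd.2 n
          exact ⟨z, by rw [← hψ₀₂, hz, mul_smul]⟩⟩
      exact (IsLocalRing.mem_maximalIdeal b).mp hb (hprim' b hψdb)
  obtain ⟨u', hu'⟩ := huu.exists_left_inv
  exact ⟨{
    e₁ := LinearEquiv.ofBijective φ₀.m₁ (bijective_of_comp_smul φ₀.m₁ ψ₀.m₁ u u' hu' u₁ u₁')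
    e₂ := LinearEquiv.ofBijective φ₀.m₂ (bijective_of_comp_smul φ₀.m₂ ψ₀.m₂ u u' hu' u₂ u₂')
    e₁₂ := LinearEquiv.ofBijective φ₀.m₁₂ (bijective_of_comp_smul φ₀.m₁₂ ψ₀.m₁₂ u u' hu'
      (φ₀.comp₁₂ ψ₀ u u₁) (ψ₀.comp₁₂ φ₀ u u₁'))
    comm₁ := fun n => φ₀.comm₁ n
    comm₂ := fun n => φ₀.comm₂ n }⟩

end Valuation

end Fermat.Agent.S25.VALSEP.G2910
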